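import Fermat.Agent.S18.H.Hensel

set_option autoImplicit false

/-! # S18 / H3 : `m`-th roots in `k((s))` -/

namespace Fermat.Agent.S18.H

open Polynomial

/-- an element of `k((s))` (`k` algebraically closed of characteristic `0`) whose order is divisible
by `m` is an `m`-th power. -/
theorem exists_pow_eq {k : Type*} [Field k] [IsAlgClosed k] [CharZero k] (m : ℕ) (hm : 0 < m)
    (z : LaurentSeries k) (hz : (m : ℤ) ∣ z.order) : ∃ w : LaurentSeries k, w ^ m = z := by
  by_cases hz0 : z = 0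
  · exact ⟨0, by rw [hz0, zero_pow hm.ne']⟩
  obtain ⟨d, hd⟩ := hz
  set U : PowerSeries k := z.powerSeriesPart with hU
  have hzU : HahnSeries.single z.order (1 : k) * HahnSeries.ofPowerSeries ℤ k U = z :=
    LaurentSeries.single_order_mul_powerSeriesPart z
  have hU0 : PowerSeries.constantCoeff (R := k) U ≠ 0 := by
    rw [← PowerSeries.coeff_zero_eq_constantCoeff_apply, hU, LaurentSeries.powerSeriesPart_coeff]
    simpa using HahnSeries.leadingCoeff_ne_zero.2 hz0
  obtain ⟨t0, ht0⟩ := IsAlgClosed.exists_pow_nat_eq (PowerSeries.constantCoeff (R := k) U) hm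
  have ht00 : t0 ≠ 0 := by
    intro h
    rw [h, zero_pow hm.ne'] at ht0
    exact hU0 ht0.symm
  obtain ⟨T, hT, -⟩ := exists_root_powerSeries (X ^ m - C U) t0
    (by simp [ht0])
    (by
      simp only [Polynomial.map_sub, Polynomial.map_pow, map_X, map_C, derivative_sub,
        derivative_C, derivative_X_pow, sub_zero, eval_mul, eval_pow, eval_X, eval_C]
      exact mul_ne_zero (Nat.cast_ne_zero.2 hm.ne') (pow_ne_zero _ ht00))
  have hT' : T ^ m = U := by
    simpa [sub_eq_zero] using hT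
  refine ⟨HahnSeries.single d (1 : k) * HahnSeries.ofPowerSeries ℤ k T, ?_⟩
  rw [mul_pow, ← map_pow (HahnSeries.ofPowerSeries ℤ k), hT', HahnSeries.single_pow, one_pow]
  conv_rhs => rw [← hzU, hd]
  simp

/-- hence all its `m`-th roots in any extension field lie in `k((s))`. -/
theorem mem_range_of_pow_eq {k Ω : Type*} [Field k] [IsAlgClosed k] [CharZero k] [Field Ω]
    (f : LaurentSeries k →+* Ω) (m : ℕ) (hm : 0 < m)
    (z : LaurentSeries k) (hz : (m : ℤ) ∣ z.order) (y : Ω) (hy : y ^ m = f z) : y ∈ f.range := by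
  obtain ⟨w, hw⟩ := exists_pow_eq m hm z hz
  by_cases hw0 : w = 0
  · rw [← hw, hw0, zero_pow hm.ne', map_zero] at hy
    rw [pow_eq_zero_iff hm.ne'] at hy
    exact ⟨0, by rw [hy, map_zero]⟩
  have : NeZero m := ⟨hm.ne'⟩
  have : NeZero (m : k) := ⟨Nat.cast_ne_zero.2 hm.ne'⟩
  obtain ⟨ζ, hζ⟩ := HasEnoughRootsOfUnity.exists_primitiveRoot k m
  have hinj : Function.Injective (f.comp (HahnSeries.C (Γ := ℤ) (R := k))) := RingHom.injective _
  have hζ' : IsPrimitiveRoot (f (HahnSeries.C ζ)) m := hζ.map_of_injective hinj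
  have hfw : f w ≠ 0 := by
    rw [Ne, map_eq_zero]; exact hw0
  have h1 : (y / f w) ^ m = 1 := by
    rw [div_pow, hy, ← hw, map_pow, div_self (pow_ne_zero _ hfw)]
  obtain ⟨i, -, hi⟩ := hζ'.eq_pow_of_pow_eq_one h1
  refine ⟨HahnSeries.C ζ ^ i * w, ?_⟩
  rw [map_mul, map_pow, hi, div_mul_cancel₀ _ hfw]

end Fermat.Agent.S18.H
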