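import Mathlib

set_option autoImplicit false

/-! # S18 / H1 : Hensel's lemma in `k⟦s⟧` -/

namespace Fermat.Agent.S18.H

open Polynomial

namespace Hensel

open scoped Ring

/-- Hensel's lemma in an adically complete ring, for a not necessarily monic polynomial
(the proof is the one of `IsAdicComplete.henselianRing` in Mathlib, which never uses monicity). -/
theorem exists_root_of_adicComplete (R : Type*) [CommRing R] (I : Ideal R)
    [IsAdicComplete I R] (f : R[X]) (a₀ : R) (h₁ : f.eval a₀ ∈ I)
    (h₂ : IsUnit (Ideal.Quotient.mk I (f.derivative.eval a₀))) :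
    ∃ a : R, f.IsRoot a ∧ a - a₀ ∈ I := by
  classical
    let f' := derivative f
    let c : ℕ → R := fun n => Nat.recOn n a₀ fun _ b => b - f.eval b * (f'.eval b)⁻¹ʳ
    have hc : ∀ n, c (n + 1) = c n - f.eval (c n) * (f'.eval (c n))⁻¹ʳ := by
      intro n
      simp only [c]
    have hc_mod : ∀ n, c n ≡ a₀ [SMOD I] := by
      intro n
      induction n with
      | zero => rfl
      | succ n ih => ?_
      rw [hc, sub_eq_add_neg, ← add_zero a₀]
      refine ih.add ?_
      rw [SModEq.zero, Ideal.neg_mem_iff]
      refine I.mul_mem_right _ ?_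
      rw [← SModEq.zero] at h₁ ⊢
      exact (ih.eval f).trans h₁
    have hf'c : ∀ n, IsUnit (f'.eval (c n)) := by
      intro n
      have := isLocalHom_of_le_jacobson_bot I (IsAdicComplete.le_jacobson_bot I)
      apply IsUnit.of_map (Ideal.Quotient.mk I)
      convert! h₂ using 1
      exact SModEq.def.mp ((hc_mod n).eval _)
    have hfcI : ∀ n, f.eval (c n) ∈ I ^ (n + 1) := by
      intro n
      induction n with
      | zero => simpa only [Nat.rec_zero, zero_add, pow_one] using! h₁
      | succ n ih => ?_
      rw [← taylor_eval_sub (c n), hc, sub_eq_add_neg, sub_eq_add_neg,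
        add_neg_cancel_comm]
      rw [eval_eq_sum, sum_over_range' _ _ _ (lt_add_of_pos_right _ zero_lt_two), ←
        Finset.sum_range_add_sum_Ico _ (Nat.le_add_left _ _)]
      swap
      · intro i
        rw [zero_mul]
      refine Ideal.add_mem _ ?_ ?_
      · rw [← one_add_one_eq_two, Finset.sum_range_succ, Finset.range_one, Finset.sum_singleton,
          taylor_coeff_zero, taylor_coeff_one, pow_zero, pow_one, mul_one, mul_neg,
          mul_left_comm, Ring.mul_inverse_cancel _ (hf'c n), mul_one, add_neg_cancel]
        exact Ideal.zero_mem _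
      · refine Submodule.sum_mem _ ?_
        simp only [Finset.mem_Ico]
        rintro i ⟨h2i, _⟩
        have aux : n + 2 ≤ i * (n + 1) := by trans 2 * (n + 1) <;> nlinarith only [h2i]
        refine Ideal.mul_mem_left _ _ (Ideal.pow_le_pow_right aux ?_)
        rw [pow_mul']
        exact Ideal.pow_mem_pow ((Ideal.neg_mem_iff _).2 <| Ideal.mul_mem_right _ _ ih) _
    have aux : ∀ m n, m ≤ n → c m ≡ c n [SMOD (I ^ m • ⊤ : Ideal R)] := by
      intro m n hmn
      rw [← Ideal.one_eq_top, Ideal.smul_eq_mul, mul_one]
      obtain ⟨k, rfl⟩ := Nat.exists_eq_add_of_le hmn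
      clear hmn
      induction k with
      | zero => rw [add_zero]
      | succ k ih => ?_
      rw [← add_assoc, hc, ← add_zero (c m), sub_eq_add_neg]
      refine ih.add ?_
      symm
      rw [SModEq.zero, Ideal.neg_mem_iff]
      refine Ideal.mul_mem_right _ _ (Ideal.pow_le_pow_right ?_ (hfcI _))
      rw [add_assoc]
      exact le_self_add
    obtain ⟨a, ha⟩ := IsPrecomplete.prec' c (aux _ _)
    refine ⟨a, ?_, ?_⟩
    · show f.IsRoot a
      suffices ∀ n, f.eval a ≡ 0 [SMOD (I ^ n • ⊤ : Ideal R)] by exact IsHausdorff.haus' _ this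
      intro n
      specialize ha n
      rw [← Ideal.one_eq_top, Ideal.smul_eq_mul, mul_one] at ha ⊢
      refine (ha.symm.eval f).trans ?_
      rw [SModEq.zero]
      exact Ideal.pow_le_pow_right le_self_add (hfcI _)
    · show a - a₀ ∈ I
      have ha1 := ha 1
      rw [pow_one, ← Ideal.one_eq_top, Ideal.smul_eq_mul, mul_one] at ha1
      rw [← SModEq.sub_mem]
      exact ha1.symm.trans (hc_mod 1)

end Hensel

/-- Hensel's lemma for power series over a field: a simple root of the constant-term reduction lifts. -/
theorem exists_root_powerSeries {k : Type*} [Field k] (P : Polynomial (PowerSeries k)) (t0 : k)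
    (h0 : (P.map (PowerSeries.constantCoeff (R := k))).eval t0 = 0)
    (h1 : (P.map (PowerSeries.constantCoeff (R := k))).derivative.eval t0 ≠ 0) :
    ∃ T : PowerSeries k, P.eval T = 0 ∧ PowerSeries.constantCoeff (R := k) T = t0 := by
  have key : ∀ Q : Polynomial (PowerSeries k),
      PowerSeries.constantCoeff (R := k) (Q.eval (PowerSeries.C t0)) =
        (Q.map (PowerSeries.constantCoeff (R := k))).eval t0 := by
    intro Q
    have h := Polynomial.eval_map_apply (PowerSeries.constantCoeff (R := k)) (p := Q)
      (PowerSeries.C t0)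
    rw [PowerSeries.constantCoeff_C] at h
    exact h.symm
  have hI : P.eval (PowerSeries.C t0) ∈ (Ideal.span {PowerSeries.X} : Ideal (PowerSeries k)) := by
    rw [Ideal.mem_span_singleton, PowerSeries.X_dvd_iff, key, h0]
  have hU : IsUnit (P.derivative.eval (PowerSeries.C t0)) := by
    rw [PowerSeries.isUnit_iff_constantCoeff, key, ← derivative_map]
    exact isUnit_iff_ne_zero.mpr h1
  obtain ⟨T, hT, hT0⟩ := Hensel.exists_root_of_adicComplete (PowerSeries k)
    (Ideal.span {PowerSeries.X}) P (PowerSeries.C t0) hI (hU.map _)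
  refine ⟨T, hT, ?_⟩
  rw [Ideal.mem_span_singleton, PowerSeries.X_dvd_iff, map_sub, PowerSeries.constantCoeff_C,
    sub_eq_zero] at hT0
  exact hT0

end Fermat.Agent.S18.H
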