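import Fermat.Agent.S18.H.CountA

set_option autoImplicit false

/-! # S18 / H4b : ring homs `ℚ̄ → Om` -/

namespace Fermat.Agent.S18.H

open Fermat.Agent.S24

namespace Aut

/-- two embeddings of a normal algebraic extension differ by an automorphism. -/
theorem exists_algEquiv {F L M : Type*} [Field F] [Field L] [Field M] [Algebra F L] [Algebra F M]
    [Normal F L] (κ ι : L →ₐ[F] M) : ∃ α : L ≃ₐ[F] L, ∀ a, κ a = ι (α a) := by
  let e : L ≃ₐ[F] ι.fieldRange := AlgEquiv.ofInjectiveField ι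
  have : Normal F ι.fieldRange := Normal.of_algEquiv e
  have h1 : (κ.comp e.symm.toAlgHom).fieldRange = ι.fieldRange := AlgHom.fieldRange_of_normal _
  have key : ∀ a, ∃ b, κ a = ι b := by
    intro a
    have h2 : κ a ∈ (κ.comp e.symm.toAlgHom).fieldRange := ⟨e a, by simp⟩
    rw [h1] at h2
    obtain ⟨b, hb⟩ := h2
    exact ⟨b, hb.symm⟩
  choose f hf using key
  have hinj : Function.Injective ι := ι.injective
  let α₀ : L →ₐ[F] L :=
    { toFun := f
      map_one' := hinj (by rw [← hf, map_one, map_one])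
      map_mul' := fun x y => hinj (by rw [← hf, map_mul, map_mul, hf, hf])
      map_zero' := hinj (by rw [← hf, map_zero, map_zero])
      map_add' := fun x y => hinj (by rw [← hf, map_add, map_add, hf, hf])
      commutes' := fun r => hinj (by rw [← hf, AlgHom.commutes, AlgHom.commutes]) }
  exact ⟨AlgEquiv.ofBijective α₀ (Algebra.IsAlgebraic.algHom_bijective α₀), fun a => hf a⟩

end Aut

/-- (b) any ring hom `ℚ̄ → Om` is `inc ∘ C ∘ iotaK ∘ α` for an automorphism `α` of `ℚ̄`. -/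
theorem exists_aut (κ : Kb →+* Om) :
    ∃ α : Kb ≃ₐ[ℚ] Kb, ∀ a : Kb, κ a = inc (HahnSeries.C (iotaK (α a))) := by
  let ι₀ : Kb →+* Om := inc.comp ((HahnSeries.C : ℂ →+* LaurentSeries ℂ).comp iotaK)
  have hκ : ∀ r : ℚ, κ (algebraMap ℚ Kb r) = algebraMap ℚ Om r := fun r => by
    rw [eq_ratCast, eq_ratCast, map_ratCast]
  have hι : ∀ r : ℚ, ι₀ (algebraMap ℚ Kb r) = algebraMap ℚ Om r := fun r => by
    rw [eq_ratCast, eq_ratCast, map_ratCast]
  let κ' : Kb →ₐ[ℚ] Om := { κ with commutes' := hκ }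
  let ι' : Kb →ₐ[ℚ] Om := { ι₀ with commutes' := hι }
  have h1 : Algebra.IsAlgebraic ℚ Kb := AlgebraicClosure.isAlgebraic ℚ
  have h2 : IsAlgClosure ℚ Kb := ⟨inferInstance, h1⟩
  have h3 : Normal ℚ Kb := IsAlgClosure.normal ℚ Kb
  obtain ⟨α, hα⟩ := Aut.exists_algEquiv κ' ι'
  exact ⟨α, fun a => hα a⟩

end Fermat.Agent.S18.H
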