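import Fermat.Agent.S18.H.CountA
import Fermat.Agent.S18.H.Aut

set_option autoImplicit false

/-! # S18 / H4c : embeddings of `F` over `j ↦ J(s)`, no hypothesis on the constants -/

open UpperHalfPlane ModularForm EisensteinSeries CongruenceSubgroup IntermediateField
open scoped MatrixGroups Manifold

namespace Fermat.Agent.S18.H

open Fermat.Agent.S24

namespace Count

theorem arith_jF (N : ℕ) [NeZero N] (α : Kb ≃ₐ[ℚ] Kb) :
    ModularCurve.arithmeticRingAut (ModularCurve.modularFunctionFieldFull N) α (jF N) = jF N := by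
  apply Subtype.ext
  rw [ModularCurve.coe_arithmeticRingAut_apply]
  show ModularCurve.coeffMap (α : Kb →+* Kb) (Jser 1) = Jser 1
  rw [phi_Jser_of_ne, ModularCurve.jqNModC, ModularCurve.coeffMap_qExpand, phi_coeffMap_jqModC]

end Count

/-- (c) without any hypothesis on the constants: twist by the coefficientwise Galois action
`ModularCurve.arithmeticRingAut`, which fixes `jF N`. -/
theorem exists_eq_thetaQ_comp (N : ℕ) [NeZero N] (c : Chart N) (φ : FN N →+* Om)
    (hj : φ (jF N) = inc (Jc c)) :
    ∃ (q : SL(2, ℤ) ⧸ Gamma0 N) (α : Kb ≃ₐ[ℚ] Kb),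
      φ = (inc.comp (thetaQ N c q)).comp
        (ModularCurve.arithmeticRingAut (ModularCurve.modularFunctionFieldFull N) α :
          FN N →+* FN N) := by
  obtain ⟨α, hα⟩ := exists_aut (φ.comp (algebraMap Kb (FN N)))
  set Aα := ModularCurve.arithmeticRingAut (ModularCurve.modularFunctionFieldFull N) α with hA
  have h1 : ∀ a : Kb, Aα.symm (algebraMap Kb (FN N) a) = algebraMap Kb (FN N) (α.symm a) := by
    intro a
    rw [RingEquiv.symm_apply_eq, hA, ModularCurve.arithmeticRingAut_algebraMap,
      AlgEquiv.apply_symm_apply]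
  have h2 : Aα.symm (jF N) = jF N := by
    rw [RingEquiv.symm_apply_eq, hA, Count.arith_jF]
  obtain ⟨q, hq⟩ := exists_eq_thetaQ N c (φ.comp (Aα.symm : FN N →+* FN N))
    (fun a => by
      have := hα (α.symm a)
      rw [AlgEquiv.apply_symm_apply] at this
      rw [← this]
      simp only [RingHom.comp_apply, RingHom.coe_coe, h1])
    (by simp only [RingHom.comp_apply, RingHom.coe_coe, h2, hj])
  refine ⟨q, α, ?_⟩
  rw [← hq]
  ext x
  show φ x = φ (Aα.symm (Aα x))
  rw [RingEquiv.symm_apply_apply]

end Fermat.Agent.S18.H
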