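import Fermat.Agent.S18.H.CountA

set_option autoImplicit false

/-! # S18 / H5 : orders in a chart are multiples of orders at places -/

open UpperHalfPlane ModularForm EisensteinSeries CongruenceSubgroup IntermediateField AlgebraicCurve
open scoped MatrixGroups Manifold

namespace Fermat.Agent.S18.H

open Fermat.Agent.S24

namespace Order

/-- if `m` divides `ord_v g` at all places then `m` divides `w g` for every valuation `w`. -/
theorem dvd_of_isVal {K F : Type*} [Field K] [Field F] [Algebra K F] {w : F → ℤ}
    (hw : IsVal K w) (m : ℤ) (g : F) (hg0 : g ≠ 0) (hg : ∀ v : Place K F, m ∣ v.ord g) :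
    m ∣ w g := by
  obtain ⟨v, e, -, hv, -⟩ := hw.exists_place
  rw [hv g hg0]
  exact Dvd.dvd.mul_left (hg v) e

end Order

/-- If `m` divides `ord_v g` at all places then `m` divides the order of `g` in every chart.
(Either `(thetaQ N c q f).order = 0` for all `f ≠ 0` (this happens at transcendental points), or
`f ↦ (thetaQ N c q f).order` is an `IsVal` (see `S24.Count.isVal_order`), then use
`IsVal.exists_place`.) -/
theorem dvd_order_thetaQ (N : ℕ) [NeZero N] (c : Chart N)
    (q : SL(2, ℤ) ⧸ Gamma0 N) (m : ℤ) (g : FN N) (hg : ∀ v : Place Kb (FN N), m ∣ v.ord g) :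
    m ∣ (thetaQ N c q g).order := by
  by_cases hg0 : g = 0
  · rw [hg0, map_zero, HahnSeries.order_zero]
    exact dvd_zero m
  by_cases hnt : ∃ f : FN N, f ≠ 0 ∧ (thetaQ N c q f).order ≠ 0
  · have hw : IsVal Kb (fun f : FN N => (thetaQ N c q f).order) :=
      { map_mul := fun f g hf hg => by
          simp only [map_mul]
          exact HahnSeries.order_mul ((map_ne_zero _).mpr hf) ((map_ne_zero _).mpr hg)
        map_add := fun f g _ _ hfg => by
          simp only [map_add]
          exact HahnSeries.min_order_le_order_add (by rw [← map_add]; exact (map_ne_zero _).mpr hfg)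
        map_const := fun a _ => by
          have : thetaQ N c q (algebraMap Kb (FN N) a) = HahnSeries.C (iotaK a) :=
            theta_const N c _ a
          simp only [this]
          exact (HahnSeries.order_C).ge
        nontrivial := hnt }
    exact Order.dvd_of_isVal hw m g hg0 hg
  · push Not at hnt
    rw [hnt g hg0]
    exact dvd_zero m

/-- the Galois action permutes the places. -/
theorem dvd_ord_arithmeticRingAut (N : ℕ) [NeZero N] (α : Kb ≃ₐ[ℚ] Kb) (m : ℤ) (g : FN N)
    (hg : ∀ v : Place Kb (FN N), m ∣ v.ord g) (v : Place Kb (FN N)) :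
    m ∣ v.ord (ModularCurve.arithmeticRingAut (ModularCurve.modularFunctionFieldFull N) α g) := by
  by_cases hg0 : g = 0
  · rw [hg0, map_zero, Place.ord_zero]
    exact dvd_zero m
  set σ := ModularCurve.arithmeticRingAut (L := Kb) (ModularCurve.modularFunctionFieldFull N) α
    with hσ
  have hw : IsVal Kb (fun f : FN N => v.ord (σ f)) :=
    { map_mul := fun f g hf hg => by
        simp only [map_mul]
        exact v.ord_mul ((map_ne_zero_iff _ σ.injective).mpr hf)
          ((map_ne_zero_iff _ σ.injective).mpr hg)
      map_add := fun f g _ _ hfg => by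
        simp only [map_add]
        exact min_le_ord_add v (by rw [← map_add]; exact (map_ne_zero_iff _ σ.injective).mpr hfg)
      map_const := fun a _ => by
        have : σ (algebraMap Kb (FN N) a) = algebraMap Kb (FN N) (α a) :=
          ModularCurve.arithmeticRingAut_algebraMap _ α a
        simp only [this]
        exact (ord_algebraMap v _).ge
      nontrivial := by
        obtain ⟨t, ht, ht0, -⟩ := exists_ord_eq_one v
        refine ⟨σ.symm t, ?_, ?_⟩
        · exact (map_ne_zero_iff _ σ.symm.injective).mpr ht0
        · simp only [RingEquiv.apply_symm_apply, ht]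
          exact one_ne_zero }
  exact Order.dvd_of_isVal hw m g hg0 hg

end Fermat.Agent.S18.H
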