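import Fermat.Agent.S18.H.CountA

set_option autoImplicit false

/-! # S18 / H6 : the charts that are used, and the order of `j - j₀` in them -/

open UpperHalfPlane ModularForm EisensteinSeries CongruenceSubgroup IntermediateField
open scoped MatrixGroups Manifold

namespace Fermat.Agent.S18.H

open Fermat.Agent.S24

/-- the cusp chart composed with `s ↦ s^k`. -/
noncomputable def powChart (N k : ℕ) [NeZero N] [NeZero k] : Chart N where
  R := perSub N
  T := (ModularCurve.qExpand ℂ k).comp (TInf N)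
  inj := (ModularCurve.qExpand_injective k).comp (TInf_injective N)
  le := Btil_le_perSub N
  const a := by
    rw [RingHom.comp_apply]
    have h := TInf_const N (iotaK a) (Btil_le_perSub N (constK_mem_Btil N a))
    have h' : TInf N ⟨constK a, Btil_le_perSub N (constK_mem_Btil N a)⟩ = HahnSeries.C (iotaK a) := h
    rw [h', ModularCurve.qExpand_C]

theorem order_Jc_powChart (N k : ℕ) [NeZero N] [NeZero k] :
    (Jc (powChart N k)).order = -((k : ℤ) * N) := by
  have h : Jc (powChart N k) = ModularCurve.qExpand ℂ k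
      (TInf N ⟨jFun, Btil_le_perSub N (jFun_mem_Btil N)⟩) := rfl
  rw [h, order_qExpand, Cards.order_TInf_jFun]
  ring

namespace Charts

theorem Jc_ptChart_sub (N : ℕ) [NeZero N] (τ : ℍ) (a : ℂ) :
    Jc (ptChart N τ) - HahnSeries.C a = TPt τ ⟨fun z => jFun z - a, jFun_sub_mem_holSub _⟩ := by
  have h : Jc (ptChart N τ) = TPt τ ⟨jFun, Btil_le_holSub N (jFun_mem_Btil N)⟩ := rfl
  have hmem : (fun _ : ℍ => a) ∈ holSub := by
    have h1 := sub_mem (Btil_le_holSub N (jFun_mem_Btil N)) (jFun_sub_mem_holSub a)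
    have h2 : jFun - (fun z => jFun z - a) = fun _ : ℍ => a := by
      funext z
      simp
    rwa [h2] at h1
  rw [h, ← TPt_const τ a hmem, ← map_sub]
  congr 1

end Charts

/-- for every value `j₀ ∉ {0, 1728}` there is a chart in which `j - j₀` has order `1`. -/
theorem exists_chart_generic (N : ℕ) [NeZero N] (j0 : ℂ) (h0 : j0 ≠ 0) (h1 : j0 ≠ 1728) :
    ∃ c : Chart N, (Jc c - HahnSeries.C j0).order = 1 := by
  obtain ⟨τ, rfl⟩ := jFun_surjective j0
  exact ⟨ptChart N τ, by rw [Charts.Jc_ptChart_sub]; exact order_TPt_jFun_sub τ h0 h1⟩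

theorem exists_chart_1728 (N : ℕ) [NeZero N] :
    ∃ c : Chart N, (Jc c - HahnSeries.C 1728).order = 2 :=
  ⟨ptChart N I, by rw [Charts.Jc_ptChart_sub]; exact order_TPt_jFun_sub_I⟩

theorem exists_chart_zero (N : ℕ) [NeZero N] :
    ∃ c : Chart N, (Jc c - HahnSeries.C 0).order = 3 :=
  ⟨ptChart N rhoPt, by rw [Charts.Jc_ptChart_sub]; exact order_TPt_jFun_sub_rhoPt⟩

end Fermat.Agent.S18.H
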