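import Fermat.Agent.S18.H.Hensel

set_option autoImplicit false

/-! # S18 / H2 : solving `A(X) = B(X) J(s)` in `k((s))` near a point of multiplicity `m` -/

namespace Fermat.Agent.S18.H

open Polynomial

namespace Lift

variable {k : Type*} [Field k]

/-- the coercion `k⟦s⟧ → k((s))`. -/
noncomputable abbrev φ (k : Type*) [Field k] : PowerSeries k →+* LaurentSeries k :=
  HahnSeries.ofPowerSeries ℤ k

theorem aeval_phi (A : k[X]) (Y : PowerSeries k) :
    aeval (φ k Y) A = φ k (aeval Y A) := by
  rw [aeval_def, aeval_def, hom_eval₂]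
  congr 1

theorem constantCoeff_aeval (A : k[X]) (Y : PowerSeries k) :
    PowerSeries.constantCoeff (R := k) (aeval Y A)
      = A.eval (PowerSeries.constantCoeff (R := k) Y) := by
  rw [aeval_def, hom_eval₂]
  have : (PowerSeries.constantCoeff (R := k)).comp (algebraMap k (PowerSeries k)) = RingHom.id k := by
    ext a
    simp
  rw [this, eval₂_id]

theorem phi_ne_zero (T : PowerSeries k)
    (hT : PowerSeries.constantCoeff (R := k) T ≠ 0) : φ k T ≠ 0 := by
  intro h
  have : T = 0 := HahnSeries.ofPowerSeries_injective (Γ := ℤ) (by rw [map_zero]; exact h)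
  simp [this] at hT

theorem order_phi (T : PowerSeries k)
    (hT : PowerSeries.constantCoeff (R := k) T ≠ 0) : (φ k T).order = 0 := by
  apply le_antisymm
  · apply HahnSeries.order_le_of_coeff_ne_zero
    have := HahnSeries.ofPowerSeries_apply_coeff (Γ := ℤ) T 0
    simp only [Nat.cast_zero] at this
    rw [this]
    simpa using hT
  · rw [HahnSeries.le_order_iff_forall (phi_ne_zero T hT)]
    intro j hj
    rw [PowerSeries.coeff_coe, if_pos hj]

theorem order_phi_X_pow_mul (n : ℕ) (T : PowerSeries k)
    (hT : PowerSeries.constantCoeff (R := k) T ≠ 0) :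
    (φ k (PowerSeries.X ^ n * T)).order = (n : ℤ) := by
  rw [map_mul, HahnSeries.ofPowerSeries_X_pow, HahnSeries.order_mul (by simp) (phi_ne_zero T hT),
    order_phi T hT, HahnSeries.order_single one_ne_zero, add_zero]

/-- the polynomial `T^m G(c + s^r T) - B(c + s^r T) U` over `k⟦s⟧`. -/
noncomputable def pol (B G : k[X]) (c : k) (m r : ℕ) (U : PowerSeries k) :
    Polynomial (PowerSeries k) :=
  X ^ m * (G.map (PowerSeries.C (R := k))).comp (C (PowerSeries.C c) + C (PowerSeries.X ^ r) * X)
    - (B.map (PowerSeries.C (R := k))).comp (C (PowerSeries.C c) + C (PowerSeries.X ^ r) * X) * C U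

theorem eval_pol (B G : k[X]) (c : k) (m r : ℕ) (U T : PowerSeries k) :
    (pol B G c m r U).eval T
      = T ^ m * aeval (PowerSeries.C c + PowerSeries.X ^ r * T) G
        - aeval (PowerSeries.C c + PowerSeries.X ^ r * T) B * U := by
  simp only [pol, eval_sub, eval_mul, eval_pow, eval_X, eval_comp, eval_add, eval_C, eval_map,
    aeval_def]
  rfl

theorem map_pol (B G : k[X]) (c : k) (m r : ℕ) (hr : 0 < r) (U : PowerSeries k) :
    (pol B G c m r U).map (PowerSeries.constantCoeff (R := k))
      = X ^ m * C (G.eval c) - C (B.eval c) * C (PowerSeries.constantCoeff (R := k) U) := by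
  have h1 : ∀ Q : k[X], ((Q.map (PowerSeries.C (R := k))).comp
      (C (PowerSeries.C c) + C (PowerSeries.X ^ r) * X)).map (PowerSeries.constantCoeff (R := k))
      = C (Q.eval c) := by
    intro Q
    rw [map_comp, map_map]
    have : (PowerSeries.constantCoeff (R := k)).comp (PowerSeries.C (R := k)) = RingHom.id k := by
      ext a; simp
    rw [this, map_id]
    simp [hr.ne', comp_C]
  simp only [pol, Polynomial.map_sub, Polynomial.map_mul, Polynomial.map_pow, map_X, h1, map_C]

end Lift

open Lift in
/-- Let `A - j0 B = (X - c)^m G`, `G(c) ≠ 0`, `B(c) ≠ 0` and `ord (J - j0) = m r`, `r > 0`.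
Then there is `Xs ∈ k((s))` with `ord (Xs - c) = r` and `A(Xs) = B(Xs) J`.
(Put `Xs = c + s^r T`, `J - j0 = s^(m r) U`; the equation becomes
`T^m G(c + s^r T) - B(c + s^r T) U = 0`, which has the simple root `T0`, `T0^m = B(c) U(0) / G(c)`,
modulo `s`; apply `exists_root_powerSeries`.) -/
theorem exists_lift {k : Type*} [Field k] [IsAlgClosed k] (A B G : k[X]) (j0 c : k) (m r : ℕ)
    (hm : (m : k) ≠ 0) (hr : 0 < r)
    (hfac : A - C j0 * B = (X - C c) ^ m * G) (hG : G.eval c ≠ 0) (hB : B.eval c ≠ 0)
    (J : LaurentSeries k) (hJ : (J - HahnSeries.C j0).order = (m : ℤ) * r) :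
    ∃ Xs : LaurentSeries k, (Xs - HahnSeries.C c).order = (r : ℤ) ∧
      aeval Xs A = aeval Xs B * J ∧ aeval Xs B ≠ 0 := by
  have hm0 : 0 < m := by
    rcases Nat.eq_zero_or_pos m with h | h
    · simp [h] at hm
    · exact h
  set z : LaurentSeries k := J - HahnSeries.C j0 with hz
  have hz0 : z ≠ 0 := by
    intro h
    rw [h, HahnSeries.order_zero] at hJ
    have : (0 : ℤ) < (m : ℤ) * r := by positivity
    omega
  set U : PowerSeries k := z.powerSeriesPart with hU
  have hzU : φ k (PowerSeries.X ^ (m * r) * U) = z :=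
    LaurentSeries.X_order_mul_powerSeriesPart (by rw [hJ]; push_cast; ring)
  have hU0 : PowerSeries.constantCoeff (R := k) U ≠ 0 := by
    rw [← PowerSeries.coeff_zero_eq_constantCoeff_apply, hU, LaurentSeries.powerSeriesPart_coeff]
    simpa using HahnSeries.leadingCoeff_ne_zero.2 hz0
  obtain ⟨t0, ht0⟩ := IsAlgClosed.exists_pow_nat_eq
    (B.eval c * PowerSeries.constantCoeff (R := k) U / G.eval c) hm0
  have ht00 : t0 ≠ 0 := by
    intro h
    rw [h, zero_pow hm0.ne'] at ht0
    exact (div_ne_zero (mul_ne_zero hB hU0) hG) ht0.symm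
  obtain ⟨T, hT, hT0⟩ := exists_root_powerSeries (pol B G c m r U) t0
    (by
      rw [map_pol B G c m r hr U]
      simp only [eval_sub, eval_mul, eval_pow, eval_X, eval_C, ht0]
      field_simp
      ring)
    (by
      rw [map_pol B G c m r hr U]
      simp only [derivative_sub, derivative_mul, derivative_C, derivative_X_pow, mul_zero, zero_mul,
        add_zero, sub_zero, eval_mul, eval_pow, eval_X, eval_C]
      exact mul_ne_zero (mul_ne_zero hm (pow_ne_zero _ ht00)) hG)
  rw [eval_pol] at hT
  set Y : PowerSeries k := PowerSeries.C c + PowerSeries.X ^ r * T with hY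
  have hYc : PowerSeries.constantCoeff (R := k) Y = c := by
    simp [hY, hr.ne']
  refine ⟨φ k Y, ?_, ?_, ?_⟩
  · have : φ k Y - HahnSeries.C c = φ k (PowerSeries.X ^ r * T) := by
      rw [hY, map_add, HahnSeries.ofPowerSeries_C, add_sub_cancel_left]
    rw [this, order_phi_X_pow_mul r T (by rw [hT0]; exact ht00)]
  · have h1 : aeval Y A - PowerSeries.C j0 * aeval Y B = (Y - PowerSeries.C c) ^ m * aeval Y G := by
      have := congrArg (aeval Y) hfac
      simpa [PowerSeries.algebraMap_apply] using this
    have h2 : aeval Y A - PowerSeries.C j0 * aeval Y B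
        = aeval Y B * (PowerSeries.X ^ (m * r) * U) := by
      rw [h1, hY, add_sub_cancel_left, ← hY, mul_pow, ← pow_mul, mul_comm r m]
      linear_combination (PowerSeries.X ^ (m * r)) * hT
    have h3 := congrArg (φ k) h2
    rw [map_sub, map_mul, map_mul, hzU, HahnSeries.ofPowerSeries_C, ← aeval_phi, ← aeval_phi, hz]
      at h3
    linear_combination h3
  · rw [aeval_phi]
    apply phi_ne_zero
    rw [constantCoeff_aeval, hYc]
    exact hB

end Fermat.Agent.S18.H
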