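import Fermat.Agent.S24.Cards

set_option autoImplicit false

/-! # S18 / H4 : every embedding of `F = ℚ̄(X₀(N))` over `j ↦ J(s)` is one of the `thetaQ` -/

open UpperHalfPlane ModularForm EisensteinSeries CongruenceSubgroup IntermediateField
open scoped MatrixGroups Manifold

namespace Fermat.Agent.S18.H

open Fermat.Agent.S24

/-- the big field -/
abbrev Om : Type := AlgebraicClosure (LaurentSeries ℂ)

/-- the inclusion `ℂ((s)) → Om`. -/
noncomputable abbrev inc : LaurentSeries ℂ →+* Om := algebraMap (LaurentSeries ℂ) Om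

/-- the image of `j` in a chart. -/
noncomputable def Jc {N : ℕ} (c : Chart N) : LaurentSeries ℂ := c.onB ⟨jFun, jFun_mem_Btil N⟩

namespace CountA

/-- two ring homs out of `E` which agree on `K` and on `x` agree on `K⟮x⟯`. -/
theorem eq_on_adjoin {K E M : Type*} [Field K] [Field E] [Field M] [Algebra K E] (x : E)
    (f g : E →+* M) (hK : ∀ a : K, f (algebraMap K E a) = g (algebraMap K E a)) (hx : f x = g x)
    (y : E) (hy : y ∈ K⟮x⟯) : f y = g y := by
  let S : IntermediateField K E := (RingHom.eqLocusField f g).toIntermediateField hK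
  have hle : K⟮x⟯ ≤ S := by
    rw [IntermediateField.adjoin_le_iff]
    intro z hz
    rw [Set.mem_singleton_iff] at hz
    subst hz
    exact hx
  exact hle hy

/-- abstract counting: a family of `finrank` distinct embeddings into an algebraically closed field
exhausts all embeddings. -/
theorem exists_eq_of_card {k E M : Type*} [Field k] [Field E] [Field M] [IsAlgClosed M]
    [Algebra k E] [FiniteDimensional k E] [CharZero k] {Q : Type*} [Finite Q]
    (σ : Q → (E →+* M)) (hσ : Function.Injective σ) (φ : E →+* M)
    (hagree : ∀ q (a : k), σ q (algebraMap k E a) = φ (algebraMap k E a))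
    (hcard : Nat.card Q = Module.finrank k E) : ∃ q, φ = σ q := by
  classical
  haveI := Fintype.ofFinite Q
  letI : Algebra k M := (φ.comp (algebraMap k E)).toAlgebra
  let φ' : E →ₐ[k] M := { φ with commutes' := fun a => rfl }
  let τ : Q → (E →ₐ[k] M) := fun q => { σ q with commutes' := fun a => hagree q a }
  have hτinj : Function.Injective τ := by
    intro q q' hqq
    apply hσ
    ext y
    exact congrArg (fun ψ : E →ₐ[k] M => ψ y) hqq
  have hτbij : Function.Bijective τ := by
    rw [Fintype.bijective_iff_injective_and_card]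
    exact ⟨hτinj, by rw [← Nat.card_eq_fintype_card, hcard, AlgHom.card]⟩
  obtain ⟨q, hq⟩ := hτbij.2 φ'
  refine ⟨q, ?_⟩
  ext y
  exact (congrArg (fun ψ : E →ₐ[k] M => ψ y) hq).symm

end CountA

/-- (a) with the standard embedding of the constants.
Proof: `Q = SL₂(ℤ)/Γ₀(N)` has `finrank ℚ̄(j) F` elements (`Cards.card_Q`), `inc ∘ thetaQ` are pairwise
distinct (`thetaQ_injective`) `ℚ̄(j)`-embeddings into the algebraically closed `Om`, and there are exactly
`finrank` such embeddings (`AlgHom.card`); copy the trick of `S24.Count.exists_charpoly`. -/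
theorem exists_eq_thetaQ (N : ℕ) [NeZero N] (c : Chart N) (φ : FN N →+* Om)
    (hK : ∀ a : Kb, φ (algebraMap Kb (FN N) a) = inc (HahnSeries.C (iotaK a)))
    (hj : φ (jF N) = inc (Jc c)) :
    ∃ q : SL(2, ℤ) ⧸ Gamma0 N, φ = inc.comp (thetaQ N c q) := by
  haveI := Cards.finite_Q N
  haveI := finiteDimensional_jF N
  refine CountA.exists_eq_of_card (k := Kb⟮jF N⟯) (fun q => inc.comp (thetaQ N c q)) ?_ φ ?_
    (Cards.card_Q N)
  · intro q q' h
    apply thetaQ_injective N c
    ext1 y
    have := congrArg (fun ψ : FN N →+* Om => ψ y) h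
    exact inc.injective this
  · intro q a
    refine CountA.eq_on_adjoin (K := Kb) (jF N) _ _ ?_ ?_ _ a.2
    · intro b
      rw [hK, RingHom.comp_apply, thetaQ, theta_const]
    · rw [hj, RingHom.comp_apply, thetaQ, theta_jF, Jc]

end Fermat.Agent.S18.H
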