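import Fermat.Agent.S18.H.CountA

set_option autoImplicit false

/-! # S18 / H7 : charts for the auxiliary coordinate `x`, `A(x) = B(x) j`

`(A,B) = (A3,B3)`: `j = (x+27)(x+243)³/x³`   (Hauptmodul of `Γ₀(3)`; elliptic value `c = -27`, `e = 3`)
`(A,B) = (A2,B2)`: `j = (x+256)³/x²`          (Hauptmodul of `Γ₀(2)`; elliptic value `c = -64`, `e = 2`)
-/

open UpperHalfPlane ModularForm EisensteinSeries CongruenceSubgroup IntermediateField Polynomial
open scoped MatrixGroups Manifold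

namespace Fermat.Agent.S18.H

open Fermat.Agent.S24

noncomputable def A3 : ℤ[X] := (X + 27) * (X + 243) ^ 3
noncomputable def B3 : ℤ[X] := X ^ 3
noncomputable def A2 : ℤ[X] := (X + 256) ^ 3
noncomputable def B2 : ℤ[X] := X ^ 2

/-- `ιs ∈ ℂ((s))` is a value of `x` in some chart of `X₀(N)`. -/
def IsXChart (N : ℕ) (A B : ℤ[X]) (ιs : LaurentSeries ℂ) : Prop :=
  ∃ c : Chart N, aeval ιs B ≠ 0 ∧ aeval ιs A = aeval ιs B * Jc c

end Fermat.Agent.S18.H
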